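import Mathlib
import Fermat.Agent.MF.IntegralBasis
import Fermat.Agent.WeightOneGalois.Defs

/-!
# The level `Γ₀(M²) ∩ Γ₁(M)` and its character decomposition

The group `HM M` and the splitting of a form on it into its parts for the characters of
`(ℤ/M)ˣ`, used to study coefficients in weight one.
-/

noncomputable section

open UpperHalfPlane CongruenceSubgroup Filter Function
open Fermat.Agent.MF
open scoped MatrixGroups ModularForm Manifold Topology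

namespace Fermat.Agent.WeightOneGalois

/-- `Γ₀(M²) ∩ Γ₁(M)`. -/
def HM (M : ℕ) : Subgroup SL(2, ℤ) := Gamma0 (M ^ 2) ⊓ Gamma1 M

variable {M : ℕ}

theorem mem_HM {γ : SL(2, ℤ)} :
    γ ∈ HM M ↔ γ ∈ Gamma0 (M ^ 2) ∧ (γ 1 1 : ZMod M) = 1 := by
  rw [HM, Subgroup.mem_inf, Gamma1_mem]
  refine ⟨fun h => ⟨h.1, h.2.2.1⟩, fun h => ⟨h.1, ?_, h.2, apply_one_zero_eq_zero h.1⟩⟩
  have := upperLeft_mul_lowerRight h.1
  rwa [h.2, mul_one] at this

theorem T_mem_HM : ModularGroup.T ∈ HM M := by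
  rw [mem_HM, Gamma0_mem]
  simp [ModularGroup.coe_T]

theorem Gamma1_sq_le_HM : Gamma1 (M ^ 2) ≤ HM M := by
  intro γ hγ
  rw [Gamma1_mem] at hγ
  refine mem_HM.mpr ⟨Gamma0_mem.mpr hγ.2.2, ?_⟩
  have h := congrArg (ZMod.castHom (dvd_pow_self M two_ne_zero) (ZMod M)) hγ.2.1
  simpa using h

theorem HM_le_Gamma1 {N : ℕ} (h : N ∣ M) : HM M ≤ Gamma1 N := by
  intro γ hγ
  have hγ1 := (Gamma1_mem M γ).mp (Subgroup.mem_inf.mp hγ).2
  rw [Gamma1_mem]
  refine ⟨?_, ?_, ?_⟩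
  · have := congrArg (ZMod.castHom h (ZMod N)) hγ1.1
    rwa [map_intCast, map_one] at this
  · have := congrArg (ZMod.castHom h (ZMod N)) hγ1.2.1
    rwa [map_intCast, map_one] at this
  · have := congrArg (ZMod.castHom h (ZMod N)) hγ1.2.2
    rwa [map_intCast, map_zero] at this

theorem HM_le_Gamma0_sq : HM M ≤ Gamma0 (M ^ 2) := inf_le_left

instance finiteIndex_HM (M : ℕ) [NeZero M] : (HM M).FiniteIndex :=
  Subgroup.finiteIndex_of_le Gamma1_sq_le_HM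

theorem one_mem_strictPeriods_HM (M : ℕ) :
    (1 : ℝ) ∈ (HM M : Subgroup (GL (Fin 2) ℝ)).strictPeriods := by
  rw [Subgroup.strictPeriods_eq_zmultiples_one_of_T_mem T_mem_HM]
  exact AddSubgroup.mem_zmultiples (1 : ℝ)

theorem isQFn_HM {k : ℤ} {f : ℍ → ℂ} (hf : IsFormFn (HM M) k f) : IsQFn f := hf.isQFn T_mem_HM

theorem exists_lift [NeZero M] (d : (ZMod M)ˣ) :
    ∃ γ ∈ Gamma0 (M ^ 2), (γ 1 1 : ZMod M) = (d : ZMod M) := by
  have hco : IsCoprime ((d : ZMod M).val : ℤ) ((M : ℤ) ^ 2) :=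
    IsCoprime.pow_right (Nat.isCoprime_iff_coprime.mpr (ZMod.val_coe_unit_coprime d))
  obtain ⟨x, y, hxy⟩ := hco
  have hdet : Matrix.det !![x, -y; (M : ℤ) ^ 2, ((d : ZMod M).val : ℤ)] = 1 := by
    rw [Matrix.det_fin_two_of]
    linear_combination hxy
  refine ⟨⟨_, hdet⟩, Gamma0_mem.mpr ?_, ?_⟩
  · show ((((M : ℤ) ^ 2 : ℤ)) : ZMod (M ^ 2)) = 0
    exact_mod_cast ZMod.natCast_self (M ^ 2)
  · show ((((d : ZMod M).val : ℤ)) : ZMod M) = (d : ZMod M)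
    simp

/-- A lift of `d` to `Γ₀(M²)`. -/
def sigD (M : ℕ) [NeZero M] (d : (ZMod M)ˣ) : SL(2, ℤ) := (exists_lift d).choose

theorem sigD_mem [NeZero M] (d : (ZMod M)ˣ) : sigD M d ∈ Gamma0 (M ^ 2) :=
  (exists_lift d).choose_spec.1

theorem sigD_lr [NeZero M] (d : (ZMod M)ˣ) : (sigD M d 1 1 : ZMod M) = (d : ZMod M) :=
  (exists_lift d).choose_spec.2

section CuspFn

variable {Γ Γ' : Subgroup SL(2, ℤ)} {k k' : ℤ} {f g : ℍ → ℂ}

theorem isCuspFn_mono (hf : IsCuspFn Γ k f) (h : Γ' ≤ Γ) : IsCuspFn Γ' k f :=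
  ⟨hf.form.mono h, hf.zero⟩

theorem isCuspFn_cast (hf : IsCuspFn Γ k f) (h : k = k') : IsCuspFn Γ k' f := h ▸ hf

theorem isCuspFn_zero : IsCuspFn Γ k (0 : ℍ → ℂ) :=
  ⟨IsFormFn.zero, fun γ => by rw [SlashAction.zero_slash]; exact Filter.zero_zeroAtFilter _⟩

theorem isCuspFn_add (hf : IsCuspFn Γ k f) (hg : IsCuspFn Γ k g) : IsCuspFn Γ k (f + g) :=
  ⟨hf.form.add hg.form, fun γ => by
    rw [SlashAction.add_slash]; exact (hf.zero γ).add (hg.zero γ)⟩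

theorem isCuspFn_smul (hf : IsCuspFn Γ k f) (c : ℂ) : IsCuspFn Γ k (c • f) :=
  ⟨hf.form.smul c, fun γ => by
    rw [ModularForm.SL_smul_slash]
    have h := (hf.zero γ).const_mul c
    rw [mul_zero] at h
    exact h⟩

theorem isCuspFn_sub (hf : IsCuspFn Γ k f) (hg : IsCuspFn Γ k g) : IsCuspFn Γ k (f - g) := by
  simpa [sub_eq_add_neg] using isCuspFn_add hf (isCuspFn_smul hg (-1))

theorem isCuspFn_mul (hf : IsCuspFn Γ k f) (hg : IsFormFn Γ k' g) :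
    IsCuspFn Γ (k + k') (f * g) :=
  ⟨hf.form.mul hg, fun γ => by
    rw [ModularForm.mul_slash_SL2]; exact (hf.zero γ).mul_boundedAtFilter (hg.bdd γ)⟩

theorem isCuspFn_sum {ι : Type*} (s : Finset ι) {F : ι → ℍ → ℂ}
    (hF : ∀ i ∈ s, IsCuspFn Γ k (F i)) : IsCuspFn Γ k (∑ i ∈ s, F i) :=
  Finset.sum_induction F (IsCuspFn Γ k) (fun _ _ => isCuspFn_add) isCuspFn_zero hF

end CuspFn

variable [NeZero M] {k : ℤ} {f : ℍ → ℂ}

omit [NeZero M] in
theorem slash_eq_of_lr_eq (hf : IsFormFn (HM M) k f) {γ δ : SL(2, ℤ)}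
    (hγ : γ ∈ Gamma0 (M ^ 2)) (hδ : δ ∈ Gamma0 (M ^ 2))
    (h : (γ 1 1 : ZMod M) = (δ 1 1 : ZMod M)) : f ∣[k] γ = f ∣[k] δ := by
  have hi : γ * δ⁻¹ ∈ HM M := by
    refine mem_HM.mpr ⟨mul_mem hγ (inv_mem hδ), ?_⟩
    have h1 := lowerRight_mul hγ δ⁻¹
    have h2 := lowerRight_mul hδ δ⁻¹
    rw [mul_inv_cancel, ← h, ← h1] at h2
    rw [← h2]
    simp
  conv_lhs => rw [show γ = γ * δ⁻¹ * δ by group, SlashAction.slash_mul, hf.slash_eq _ hi]

/-- The `χ`-part of a form on `Γ₀(M²) ∩ Γ₁(M)`. -/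
def chiPart (k : ℤ) (f : ℍ → ℂ) (χ : DirichletCharacter ℂ M) : ℍ → ℂ :=
  (M.totient : ℂ)⁻¹ • ∑ d : (ZMod M)ˣ, χ⁻¹ (d : ZMod M) • (f ∣[k] sigD M d)

/-- The `χ`-part transforms by `χ` under `Γ₀(M²)`. -/
theorem chiPart_slash (hf : IsFormFn (HM M) k f) (χ : DirichletCharacter ℂ M) {γ : SL(2, ℤ)}
    (hγ : γ ∈ Gamma0 (M ^ 2)) :
    chiPart k f χ ∣[k] γ = χ (γ 1 1 : ZMod M) • chiPart k f χ := by
  have hu : IsUnit (γ 1 1 : ZMod M) := IsUnit.of_mul_eq_one _ (by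
    rw [mul_comm]; exact upperLeft_mul_lowerRight hγ)
  obtain ⟨u, hu⟩ := hu
  rw [chiPart, ModularForm.SL_smul_slash, SlashAction.sum_slash,
    smul_comm (χ (γ 1 1 : ZMod M)), Finset.smul_sum (r := χ (γ 1 1 : ZMod M))]
  congr 1
  refine Fintype.sum_equiv (Equiv.mulRight u) _ _ fun d => ?_
  rw [ModularForm.SL_smul_slash, ← SlashAction.slash_mul, smul_smul]
  rw [slash_eq_of_lr_eq hf (mul_mem (sigD_mem d) hγ) (sigD_mem (d * u)) (by
    rw [lowerRight_mul (sigD_mem d), sigD_lr, sigD_lr, Units.val_mul, hu])]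
  simp only [Equiv.coe_mulRight]
  congr 1
  rw [← hu, Units.val_mul, map_mul, ← mul_assoc, mul_comm (χ _) (χ⁻¹ _), mul_assoc,
    ← MulChar.mul_apply, mul_inv_cancel, MulChar.one_apply_coe, mul_one]

theorem isCuspFn_chiPart (hf : IsCuspFn (HM M) k f) (χ : DirichletCharacter ℂ M) :
    IsCuspFn (HM M) k (chiPart k f χ) := by
  refine isCuspFn_smul (isCuspFn_sum _ fun d _ => isCuspFn_smul ⟨⟨fun γ hγ => ?_, ?_, ?_⟩, ?_⟩ _) _
  · rw [← SlashAction.slash_mul]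
    refine slash_eq_of_lr_eq hf.form (mul_mem (sigD_mem d) (mem_HM.mp hγ).1) (sigD_mem d) ?_
    rw [lowerRight_mul (sigD_mem d), (mem_HM.mp hγ).2, mul_one]
  · exact hf.form.mdiff.slash k _
  · intro γ
    rw [← SlashAction.slash_mul]
    exact hf.form.bdd _
  · intro γ
    rw [← SlashAction.slash_mul]
    exact hf.zero _

/-- A form is the sum of its `χ`-parts. -/
theorem sum_chiPart (hf : IsFormFn (HM M) k f) :
    ∑ χ : DirichletCharacter ℂ M, chiPart k f χ = f := by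
  simp only [chiPart]
  rw [← Finset.smul_sum, Finset.sum_comm]
  simp only [← Finset.sum_smul]
  have h : ∀ d : (ZMod M)ˣ, ∑ χ : DirichletCharacter ℂ M, χ⁻¹ (d : ZMod M) =
      if d = 1 then (M.totient : ℂ) else 0 := by
    intro d
    have := DirichletCharacter.sum_char_inv_mul_char_eq (R := ℂ) (d.isUnit) (1 : ZMod M)
    simp only [map_one, mul_one, Units.val_eq_one] at this
    rw [← this]
    refine Finset.sum_congr rfl fun χ _ => ?_
    rw [MulChar.inv_apply, Ring.inverse_unit, ← ZMod.inv_coe_unit]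
  simp only [h, ite_smul, zero_smul, Finset.sum_ite_eq', Finset.mem_univ, if_true]
  rw [inv_smul_smul₀ (Nat.cast_ne_zero.mpr (Nat.totient_pos.mpr (NeZero.pos M)).ne'),
    slash_eq_of_lr_eq hf (sigD_mem 1) (one_mem _) (by rw [sigD_lr]; simp), SlashAction.slash_one]

/-- In even weight, only even characters occur. -/
theorem chiPart_eq_zero {r : ℤ} (hf : IsFormFn (HM M) (2 * r) f) (χ : DirichletCharacter ℂ M)
    (hχ : ¬ χ.Even) : chiPart (2 * r) f χ = 0 := by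
  have h1 : (-1 : SL(2, ℤ)) ∈ Gamma0 (M ^ 2) := by rw [Gamma0_mem]; simp
  have h := chiPart_slash hf χ h1
  have hodd : χ (-1) = -1 := (χ.even_or_odd).resolve_left hχ
  have h2 : chiPart (2 * r) f χ ∣[2 * r] (-1 : SL(2, ℤ)) = chiPart (2 * r) f χ := by
    ext τ
    rw [ModularForm.SL_slash_apply, ModularGroup.denom_apply]
    simp [zpow_mul]
  rw [h2] at h
  simp only [Matrix.SpecialLinearGroup.coe_neg, Matrix.SpecialLinearGroup.coe_one, Matrix.neg_apply,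
    Matrix.one_apply_eq, Int.cast_neg, Int.cast_one, hodd, neg_one_smul] at h
  funext τ
  have := congrFun h τ
  rw [Pi.neg_apply, eq_neg_iff_add_eq_zero, ← two_mul] at this
  simpa using this

end Fermat.Agent.WeightOneGalois
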