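import Mathlib
import Fermat.Agent.WeightOneGalois.Arith.Level
import Fermat.Agent.WeightOneGalois.Field.Ratio

/-!
# Weight-four forms with a character and integral expansion

For an even character `χ` modulo `M`, a form of weight four with character `χ` and expansion
`Σ_{d ∣ n} χ(d) (n/d)³ q^n`, used as a multiplier in `Arith/Conj`.
-/

noncomputable section

open UpperHalfPlane CongruenceSubgroup Filter Function
open Fermat.Agent.MF
open scoped MatrixGroups ModularForm Manifold Topology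

namespace Fermat.Agent.WeightOneGalois

variable {M : ℕ}

/-- `Σ_{d ∣ n} χ(d) (n/d)³ q^n`. -/
def wSer (χ : DirichletCharacter ℂ M) : PowerSeries ℂ :=
  PowerSeries.mk fun n => ∑ d ∈ n.divisors, χ (d : ZMod M) * (((n / d) ^ 3 : ℕ) : ℂ)

theorem coeff_zero_wSer (χ : DirichletCharacter ℂ M) : PowerSeries.coeff 0 (wSer χ) = 0 := by
  simp [wSer]

theorem coeff_one_wSer (χ : DirichletCharacter ℂ M) : PowerSeries.coeff 1 (wSer χ) = 1 := by
  simp [wSer]

theorem map_wSer (σ : ℂ →+* ℂ) (χ : DirichletCharacter ℂ M) :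
    (wSer χ).map σ = wSer (χ.ringHomComp σ) := by
  ext n
  simp [wSer, map_sum, MulChar.ringHomComp_apply]

variable [NeZero M]

/-- The even weight-four form with character `χ` and expansion `wSer χ`. -/
theorem exists_wForm (hY : YForms) (hM : 4 ≤ M) (χ : DirichletCharacter ℂ M) (hχ : χ.Even) :
    ∃ W : ℍ → ℂ, IsFormFn (HM M) 4 W ∧
      (∀ γ : SL(2, ℤ), γ ∈ Gamma0 (M ^ 2) → W ∣[(4 : ℤ)] γ = χ (γ 1 1 : ZMod M) • W) ∧
      qExpansion 1 W = wSer χ := by
  classical
  obtain ⟨G, hG₁, hG₂, hG₃⟩ := hY M hM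
  have hG : Field.IsYFamily G := ⟨hG₁, hG₂, hG₃⟩
  set Y : (ZMod M)ˣ → ℍ → ℂ := fun a => G ((a : ZMod M), 0) ∘ scale M with hYdef
  have hslash : ∀ (a : (ZMod M)ˣ) (γ : SL(2, ℤ)), γ ∈ Gamma0 (M ^ 2) →
      ∀ u : (ZMod M)ˣ, (u : ZMod M) = (γ 1 1 : ZMod M) → Y a ∣[(4 : ℤ)] γ = Y (a * u⁻¹) := by
    intro a γ hγ u hu
    have hu' : ((u⁻¹ : (ZMod M)ˣ) : ZMod M) = (γ 0 0 : ZMod M) :=
      Units.inv_eq_of_mul_eq_one_right (by rw [hu, mul_comm]; exact upperLeft_mul_lowerRight hγ)
    rw [hYdef]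
    dsimp only
    rw [hG.scale_slash a hγ, Units.val_mul, hu']
  have hform : ∀ a, IsFormFn (HM M) 4 (Y a) := fun a =>
    (Field.comp_scale_GT (hG.isFormFn a)).mono fun γ hγ =>
      ⟨(mem_HM.mp hγ).1, Or.inl (mem_HM.mp hγ).2⟩
  have hq : ∀ a (n : ℕ), (qExpansion 1 (Y a)).coeff n =
      PowerSeries.coeff n (gSer ℂ 1 ((a : ZMod M), (0 : ZMod M))) := fun a n => by
    rw [← lq_coeff_nat, hG.lq_scale (by omega) a, HahnSeries.ofPowerSeries_apply_coeff]
  refine ⟨(2 : ℂ)⁻¹ • ∑ a : (ZMod M)ˣ, χ (a : ZMod M) • Y a,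
    (IsFormFn.sum _ fun a _ => (hform a).smul _).smul _, fun γ hγ => ?_, ?_⟩
  · obtain ⟨u, hu⟩ : IsUnit (γ 1 1 : ZMod M) := IsUnit.of_mul_eq_one _ (by
      rw [mul_comm]; exact upperLeft_mul_lowerRight hγ)
    rw [ModularForm.SL_smul_slash, SlashAction.sum_slash, smul_comm (χ (γ 1 1 : ZMod M)),
      Finset.smul_sum (r := χ (γ 1 1 : ZMod M))]
    congr 1
    refine Fintype.sum_equiv (Equiv.mulRight u⁻¹) _ _ fun a => ?_
    rw [ModularForm.SL_smul_slash, hslash a γ hγ u hu, smul_smul, ← hu, Equiv.coe_mulRight,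
      ← map_mul, ← Units.val_mul]
    congr 3
    rw [mul_comm u, inv_mul_cancel_right]
  · have hYq : ∀ a, IsQFn (Y a) := fun a => isQFn_HM (hform a)
    ext n
    rw [← lq_coeff_nat, lq_smul (IsQFn.sum _ fun a _ => (hYq a).smul _),
      lq_sum _ fun a _ => (hYq a).smul _, HahnSeries.C_apply, HahnSeries.coeff_single_zero_mul,
      HahnSeries.coeff_sum]
    simp only [lq_smul (hYq _), HahnSeries.C_apply, HahnSeries.coeff_single_zero_mul, lq_coeff_nat,
      hq, gSer, wSer, PowerSeries.coeff_mk]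
    rcases eq_or_ne n 0 with rfl | hn
    · have : ∀ a : (ZMod M)ˣ, (a : ZMod M) ≠ 0 := fun a => by
        have : Fact (1 < M) := ⟨by omega⟩
        exact a.ne_zero
      simp [this]
    · simp only [if_neg hn, neg_zero, ZMod.val_zero, zero_mul, pow_zero, mul_one, mul_add,
        Finset.sum_add_distrib, Finset.sum_filter, Finset.mul_sum, mul_ite, mul_zero]
      rw [← Finset.sum_add_distrib]
      simp only [← Finset.sum_add_distrib]
      rw [Finset.sum_comm]
      refine Finset.sum_congr rfl fun d _ => ?_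
      have key : ∀ (x : ZMod M), (∑ a : (ZMod M)ˣ,
          if x = (a : ZMod M) then χ (a : ZMod M) else 0) = χ x := by
        intro x
        by_cases hx : IsUnit x
        · obtain ⟨u, rfl⟩ := hx
          rw [Finset.sum_eq_single u (fun a _ ha => if_neg fun h => ha (Units.ext h.symm))
            (fun h => absurd (Finset.mem_univ u) h), if_pos rfl]
        · rw [MulChar.map_nonunit _ hx]
          exact Finset.sum_eq_zero fun a _ => if_neg fun (h : x = _) => hx (h.symm ▸ a.isUnit)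
      have k1 := key (d : ZMod M)
      have k2 := key (-(d : ZMod M))
      rw [hχ.eval_neg] at k2
      simp only [neg_eq_iff_eq_neg] at k2
      generalize hcst : (((n / d) ^ 3 : ℕ) : ℂ) = cst
      calc _ = (2 : ℂ)⁻¹ * ((∑ a : (ZMod M)ˣ, if (d : ZMod M) = (a : ZMod M) then χ a else 0) +
            ∑ a : (ZMod M)ˣ, if (d : ZMod M) = -(a : ZMod M) then χ a else 0) * cst := by
            rw [← Finset.sum_add_distrib, Finset.mul_sum, Finset.sum_mul]
            refine Finset.sum_congr rfl fun a _ => ?_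
            split_ifs <;> ring
        _ = _ := by rw [k1, k2]; ring

end Fermat.Agent.WeightOneGalois
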