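import Mathlib
import Fermat.Agent.WeightOneGalois.Arith.WChi

/-!
# Cusp forms of weight one on `Γ₀(M²) ∩ Γ₁(M)` are stable under `End(ℂ)`

Applying an endomorphism of `ℂ` to the coefficients of such a cusp form gives the expansion of a
cusp form again. In even weight the conjugate expansion is a quotient of forms, as multiplying with
Eisenstein series with algebraic expansions reduces to level `Γ₀(M²)`; weight one follows by
multiplying with `EisRat`. This is the conjugation half of `WeightOneArith`.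
-/

noncomputable section

open UpperHalfPlane CongruenceSubgroup Filter Function
open Fermat.Agent.MF
open ModularCurve (coeffMap)
open scoped MatrixGroups ModularForm Manifold Topology

namespace Fermat.Agent.WeightOneGalois

variable (M : ℕ) [NeZero M]

/-- `s` is the expansion of a quotient of forms of weights differing by `k`. -/
def IsMero (k : ℤ) (s : LaurentSeries ℂ) : Prop :=
  ∃ (K : ℤ) (F G : ℍ → ℂ), IsFormFn (HM M) (K + k) F ∧ IsFormFn (HM M) K G ∧ G ≠ 0 ∧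
    s * lq G = lq F

variable {M}

omit [NeZero M] in
theorem isMero_zero (k : ℤ) : IsMero M k 0 :=
  ⟨0, 0, 1, IsFormFn.zero, IsFormFn.one, one_ne_zero, by simp⟩

omit [NeZero M] in
theorem isMero_add {k : ℤ} {s t : LaurentSeries ℂ} (hs : IsMero M k s) (ht : IsMero M k t) :
    IsMero M k (s + t) := by
  obtain ⟨K, F, G, hF, hG, hG0, h⟩ := hs
  obtain ⟨K', F', G', hF', hG', hG0', h'⟩ := ht
  have h1 : IsFormFn (HM M) ((K + K') + k) (F * G') := (hF.mul hG').cast (by ring)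
  have h2 : IsFormFn (HM M) ((K + K') + k) (F' * G) := (hF'.mul hG).cast (by ring)
  refine ⟨K + K', F * G' + F' * G, G * G', h1.add h2, hG.mul hG', fun h0 =>
    ((mul_eq_zero_iff hG.mdiff hG'.mdiff).mp h0).elim hG0 hG0', ?_⟩
  rw [lq_mul (isQFn_HM hG) (isQFn_HM hG'), lq_add (isQFn_HM h1) (isQFn_HM h2),
    lq_mul (isQFn_HM hF) (isQFn_HM hG'), lq_mul (isQFn_HM hF') (isQFn_HM hG), ← h, ← h']
  ring

omit [NeZero M] in
theorem isMero_sum {ι : Type*} {k : ℤ} (s : Finset ι) {x : ι → LaurentSeries ℂ}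
    (h : ∀ i ∈ s, IsMero M k (x i)) : IsMero M k (∑ i ∈ s, x i) :=
  Finset.sum_induction x (IsMero M k) (fun _ _ => isMero_add) (isMero_zero k) h

omit [NeZero M] in
theorem isMero_of_mul {k k' : ℤ} {s : LaurentSeries ℂ} {E : ℍ → ℂ} (hE : IsFormFn (HM M) k' E)
    (hE0 : E ≠ 0) (h : IsMero M (k + k') (s * lq E)) : IsMero M k s := by
  obtain ⟨K, F, G, hF, hG, hG0, he⟩ := h
  refine ⟨k' + K, F, E * G, hF.cast (by ring), hE.mul hG,
    fun h0 => ((mul_eq_zero_iff hE.mdiff hG.mdiff).mp h0).elim hE0 hG0, ?_⟩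
  rw [lq_mul (isQFn_HM hE) (isQFn_HM hG), ← mul_assoc, he]

omit [NeZero M] in
theorem isMero_lq {k : ℤ} {f : ℍ → ℂ} (hf : IsFormFn (HM M) k f) : IsMero M k (lq f) :=
  ⟨0, f, 1, hf.cast (zero_add k).symm, IsFormFn.one, one_ne_zero, by simp⟩

theorem exists_cusp_of_isMero {k : ℤ} {f : ℍ → ℂ} (hf : IsCuspFn (HM M) k f) (σ : ℂ →+* ℂ)
    (h : IsMero M k (coeffMap σ (lq f))) :
    ∃ f', IsCuspFn (HM M) k f' ∧ lq f' = coeffMap σ (lq f) := by
  let := Fintype.ofFinite (SL(2, ℤ) ⧸ HM M)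
  obtain ⟨K, F, G, hF, hG, hG0, he⟩ := h
  obtain ⟨c, hc, heq⟩ := hf.exists_equation
  set n := Fintype.card (SL(2, ℤ) ⧸ HM M)
  choose c' hc' hc'eq using fun s => exists_levelOne_galois σ (hc s).1 (hc s).2
  refine exists_cuspFn_of_equation T_mem_HM hF hG hG0 (n := n) (c := c')
    (fun s _ => hc' s) he ?_
  have hfq := isQFn_HM hf.form
  have h1 := congrArg lq heq
  rw [lq_zero, lq_add (hfq.pow _) (IsQFn.sum _ fun s _ => (hc s).1.isQFnTop.mul (hfq.pow _)),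
    lq_pow hfq, lq_sum _ fun s _ => (hc s).1.isQFnTop.mul (hfq.pow _)] at h1
  simp only [fun s => lq_mul (hc s).1.isQFnTop (hfq.pow (n - 1 - s)), lq_pow hfq] at h1
  simp only [hc'eq, ← map_pow, ← map_mul, ← map_sum, ← map_add, h1, map_zero]

theorem coeffMap_lq_of_qExpansion (σ : ℂ →+* ℂ) {W : ℍ → ℂ} {p : PowerSeries ℂ}
    (h : qExpansion 1 W = p) : coeffMap σ (lq W) = HahnSeries.ofPowerSeries ℤ ℂ (p.map σ) := by
  rw [lq, h, ModularCurve.coeffMap_ofPowerSeries]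

omit [NeZero M] in
theorem ne_zero_of_qExpansion_wSer {χ : DirichletCharacter ℂ M} {W : ℍ → ℂ}
    (h : qExpansion 1 W = wSer χ) : W ≠ 0 := by
  rintro rfl
  have := congrArg (PowerSeries.coeff 1) h
  rw [qExpansion_zero, map_zero, coeff_one_wSer] at this
  exact zero_ne_one this

omit [NeZero M] in
theorem even_inv {χ : DirichletCharacter ℂ M} (hχ : χ.Even) : (χ⁻¹).Even := by
  show χ⁻¹ (-1) = 1
  rw [MulChar.inv_apply_eq_inv', hχ, inv_one]

/-- The `χ`-part times a form with the inverse character has level `Γ₀(M²)`. -/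
theorem isCuspFn_mul_gamma0 {k k' : ℤ} {h W : ℍ → ℂ} {χ : DirichletCharacter ℂ M}
    (hh : IsCuspFn (HM M) k h) (hhs : ∀ γ : SL(2, ℤ), γ ∈ Gamma0 (M ^ 2) →
      h ∣[k] γ = χ (γ 1 1 : ZMod M) • h) (hW : IsFormFn (HM M) k' W)
    (hWs : ∀ γ : SL(2, ℤ), γ ∈ Gamma0 (M ^ 2) → W ∣[k'] γ = χ⁻¹ (γ 1 1 : ZMod M) • W) :
    IsCuspFn (Gamma0 (M ^ 2)) (k + k') (h * W) := by
  have h1 := isCuspFn_mul hh hW
  refine ⟨⟨fun γ hγ => ?_, h1.form.mdiff, h1.form.bdd⟩, h1.zero⟩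
  obtain ⟨u, hu⟩ : IsUnit (γ 1 1 : ZMod M) := IsUnit.of_mul_eq_one _ (by
    rw [mul_comm]; exact upperLeft_mul_lowerRight hγ)
  rw [ModularForm.mul_slash_SL2, hhs γ hγ, hWs γ hγ, smul_mul_smul_comm, ← MulChar.mul_apply,
    mul_inv_cancel, ← hu, MulChar.one_apply_coe, one_smul]

/-- Conjugates of even weight cusp forms are quotients of forms. -/
theorem isMero_coeffMap_even (hY : YForms) (hM : 4 ≤ M) (r : ℕ) (σ : ℂ →+* ℂ) {h : ℍ → ℂ}
    (hh : IsCuspFn (HM M) (2 * (r : ℤ)) h) : IsMero M (2 * (r : ℤ)) (coeffMap σ (lq h)) := by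
  classical
  rw [← sum_chiPart hh.form, lq_sum _ fun χ _ => isQFn_HM (isCuspFn_chiPart hh χ).form, map_sum]
  refine isMero_sum _ fun χ _ => ?_
  by_cases hχ : χ.Even
  swap
  · rw [chiPart_eq_zero hh.form χ hχ, lq_zero, map_zero]
    exact isMero_zero _
  have hc := isCuspFn_chiPart hh χ
  obtain ⟨W, hW, hWs, hWq⟩ := exists_wForm hY hM χ⁻¹ (even_inv hχ)
  have hχ' : DirichletCharacter.Even (χ⁻¹.ringHomComp σ) := by
    show σ (χ⁻¹ (-1)) = 1
    rw [even_inv hχ, map_one]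
  obtain ⟨W', hW', -, hWq'⟩ := exists_wForm hY hM _ hχ'
  obtain ⟨F', hF', hFe⟩ := exists_cusp_galois (M ^ 2) (r + 2) σ
    (isCuspFn_cast (isCuspFn_mul_gamma0 hc (fun γ hγ => chiPart_slash hh.form χ hγ) hW hWs)
      (by push_cast; ring))
  refine isMero_of_mul hW' (ne_zero_of_qExpansion_wSer hWq') ?_
  rw [show lq W' = coeffMap σ (lq W) by
      rw [coeffMap_lq_of_qExpansion σ hWq, map_wSer, lq, hWq'],
    ← map_mul, ← lq_mul (isQFn_HM hc.form) (isQFn_HM hW), ← hFe]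
  exact isMero_lq (((hF'.form).mono HM_le_Gamma0_sq).cast (by push_cast; ring))

/-- The weight-one Eisenstein series of `EisRat`, as a form on `HM M`. -/
theorem exists_eis (hE : EisRat) (hM : 3 ≤ M) : ∃ (E : ℍ → ℂ) (e : PowerSeries ℤ),
    IsFormFn (HM M) 1 E ∧ E ≠ 0 ∧ qExpansion 1 E = e.map (Int.castRingHom ℂ) ∧ e ≠ 0 := by
  obtain ⟨E, e, hEf, hq, he⟩ := hE M hM
  refine ⟨E, e, hEf.mono (HM_le_Gamma1 (dvd_refl M)), ?_, hq, fun h => he (by rw [h, map_zero])⟩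
  rintro rfl
  have := congrArg (PowerSeries.coeff 0) hq
  rw [qExpansion_zero, map_zero, PowerSeries.coeff_map, eq_intCast] at this
  exact he (by exact_mod_cast this.symm)

/-- Every endomorphism of `ℂ` preserves cusp forms of weight one. -/
theorem exists_cusp_galois_one (hY : YForms) (hE : EisRat) (hM : 4 ≤ M) (σ : ℂ →+* ℂ) {f : ℍ → ℂ}
    (hf : IsCuspFn (HM M) 1 f) : ∃ f', IsCuspFn (HM M) 1 f' ∧ lq f' = coeffMap σ (lq f) := by
  obtain ⟨E, e, hEf, hE0, hq, -⟩ := exists_eis hE (by omega : 3 ≤ M)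
  refine exists_cusp_of_isMero hf σ (isMero_of_mul hEf hE0 ?_)
  have h := isMero_coeffMap_even hY hM 1 σ (isCuspFn_cast (isCuspFn_mul hf hEf) (by norm_num))
  rw [lq_mul (isQFn_HM hf.form) (isQFn_HM hEf), map_mul, coeffMap_lq_of_intQ ⟨e, hq⟩ σ] at h
  exact h

end Fermat.Agent.WeightOneGalois
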