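import Mathlib
import Fermat.Agent.WeightOneGalois.Arith.Conj

/-!
# Coefficients of cusp forms lie in finitely generated groups

Cusp forms of even weight on `Γ₀(M²) ∩ Γ₁(M)` have their coefficients in a finitely generated
`ℤ`-module, and a rational weight-one expansion has bounded denominators. Used in `Arith/Main` for
integrality in weight one.
-/

noncomputable section

open UpperHalfPlane CongruenceSubgroup Filter Function
open Fermat.Agent.MF
open ModularCurve (coeffMap)
open scoped MatrixGroups ModularForm Manifold Topology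

namespace Fermat.Agent.WeightOneGalois

/-- All coefficients lie in one finitely generated subgroup of `ℂ`. -/
def FGCoeff (s : PowerSeries ℂ) : Prop :=
  ∃ L : Submodule ℤ ℂ, L.FG ∧ ∀ n, PowerSeries.coeff n s ∈ L

theorem fgCoeff_zero : FGCoeff 0 := ⟨⊥, Submodule.fg_bot, fun n => by simp⟩

theorem fgCoeff_add {s t : PowerSeries ℂ} (hs : FGCoeff s) (ht : FGCoeff t) : FGCoeff (s + t) := by
  obtain ⟨L, hL, hs⟩ := hs
  obtain ⟨L', hL', ht⟩ := ht
  exact ⟨L ⊔ L', hL.sup hL', fun n => by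
    rw [map_add]; exact add_mem (Submodule.mem_sup_left (hs n)) (Submodule.mem_sup_right (ht n))⟩

theorem fgCoeff_sum {ι : Type*} (t : Finset ι) {s : ι → PowerSeries ℂ}
    (h : ∀ i ∈ t, FGCoeff (s i)) : FGCoeff (∑ i ∈ t, s i) :=
  Finset.sum_induction s FGCoeff (fun _ _ => fgCoeff_add) fgCoeff_zero h

theorem fgCoeff_mul {s t : PowerSeries ℂ} (hs : FGCoeff s) (ht : FGCoeff t) : FGCoeff (s * t) := by
  obtain ⟨L, hL, hs⟩ := hs
  obtain ⟨L', hL', ht⟩ := ht
  refine ⟨L * L', hL.mul hL', fun n => ?_⟩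
  rw [PowerSeries.coeff_mul]
  exact Submodule.sum_mem _ fun p _ => Submodule.mul_mem_mul (hs _) (ht _)

theorem fgCoeff_smul {s : PowerSeries ℂ} (c : ℂ) (hs : FGCoeff s) : FGCoeff (c • s) := by
  obtain ⟨L, hL, hs⟩ := hs
  refine ⟨L.map (LinearMap.mulLeft ℤ c), hL.map _, fun n => ?_⟩
  rw [PowerSeries.coeff_smul, smul_eq_mul]
  exact ⟨_, hs n, rfl⟩

theorem fgCoeff_shift {F s : PowerSeries ℂ} (hF : FGCoeff F) (h : PowerSeries.X * s = F) :
    FGCoeff s := by
  obtain ⟨L, hL, hF⟩ := hF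
  refine ⟨L, hL, fun n => ?_⟩
  have := hF (n + 1)
  rwa [← h, PowerSeries.coeff_succ_X_mul] at this

/-- Cusp forms on `Γ₀(N)` have coefficients in a finitely generated group. -/
theorem fgCoeff_gamma0 (N : ℕ) [NeZero N] {k : ℤ} {f : ℍ → ℂ} (hf : IsCuspFn (Gamma0 N) k f) :
    FGCoeff (qExpansion 1 f) := by
  have hq : ∀ g : CuspForm (Gamma0 N) k, IsQFn (g : ℍ → ℂ) :=
    fun g => (isCuspFn_coe (Γ := Gamma0 N) g).form.isQFn0
  have hmem : hf.toCuspForm ∈ Submodule.span ℂ
      (CuspForm.intLattice N k : Set (CuspForm (Gamma0 N) k)) := by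
    rw [show Submodule.span ℂ (CuspForm.intLattice N k : Set (CuspForm (Gamma0 N) k)) = ⊤ from
      MF.hasIntegralStructure N k]
    exact Submodule.mem_top
  suffices ∀ g ∈ Submodule.span ℂ (CuspForm.intLattice N k : Set (CuspForm (Gamma0 N) k)),
      FGCoeff (qExpansion 1 (g : ℍ → ℂ)) by simpa using this _ hmem
  intro g hg
  induction hg using Submodule.span_induction with
  | zero =>
    rw [show ((0 : CuspForm (Gamma0 N) k) : ℍ → ℂ) = 0 from rfl, qExpansion_zero]
    exact fgCoeff_zero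
  | add a b _ _ ha hb =>
    rw [show ((a + b : CuspForm (Gamma0 N) k) : ℍ → ℂ) = (a : ℍ → ℂ) + b from rfl,
      qExpansion_add (hq a).analyticAt (hq b).analyticAt]
    exact fgCoeff_add ha hb
  | smul c a _ ha =>
    rw [show ((c • a : CuspForm (Gamma0 N) k) : ℍ → ℂ) = c • (a : ℍ → ℂ) from rfl,
      qExpansion_smul (hq a).analyticAt]
    exact fgCoeff_smul c ha
  | mem a ha =>
    refine ⟨Submodule.span ℤ {1}, Submodule.fg_span_singleton _, fun n => ?_⟩
    replace ha : a ∈ CuspForm.intLattice N k := ha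
    induction ha using Submodule.span_induction with
    | mem b hb =>
      obtain ⟨m, hm⟩ := hb n
      rw [Submodule.mem_span_singleton]
      exact ⟨m, by rw [ModularFormClass.qCoeff] at hm; simp [hm]⟩
    | zero => rw [show ((0 : CuspForm (Gamma0 N) k) : ℍ → ℂ) = 0 from rfl, qExpansion_zero]; simp
    | add x y _ _ hx hy =>
      rw [show ((x + y : CuspForm (Gamma0 N) k) : ℍ → ℂ) = (x : ℍ → ℂ) + y from rfl,
        qExpansion_add (hq x).analyticAt (hq y).analyticAt, map_add]
      exact add_mem hx hy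
    | smul z x _ hx =>
      have : ((z • x : CuspForm (Gamma0 N) k) : ℍ → ℂ) = (z : ℂ) • (x : ℍ → ℂ) := by
        rw [← Int.cast_smul_eq_zsmul ℂ z x]; rfl
      rw [this, qExpansion_smul (hq x).analyticAt, PowerSeries.coeff_smul]
      simpa using Submodule.smul_mem _ z hx

variable {M : ℕ}

/-- The values of a character generate a finite `ℤ`-algebra. -/
theorem fg_adjoin_char [NeZero M] (χ : DirichletCharacter ℂ M) :
    (Algebra.adjoin ℤ (Set.range χ)).toSubmodule.FG := by
  refine fg_adjoin_of_finite (Set.finite_range _) ?_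
  rintro _ ⟨a, rfl⟩
  exact isIntegral_char χ a

theorem coeff_wSer_mem (χ : DirichletCharacter ℂ M) (n : ℕ) :
    PowerSeries.coeff n (wSer χ) ∈ Algebra.adjoin ℤ (Set.range χ) := by
  rw [wSer, PowerSeries.coeff_mk]
  exact Subalgebra.sum_mem _ fun d _ =>
    mul_mem (Algebra.subset_adjoin ⟨_, rfl⟩) (natCast_mem _ _)

/-- Dividing by `wSer χ` keeps the coefficients in a finitely generated group. -/
theorem fgCoeff_div_wSer [NeZero M] {s F : PowerSeries ℂ} (χ : DirichletCharacter ℂ M)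
    (hF : FGCoeff F) (h : s * wSer χ = F) : FGCoeff s := by
  set A := Algebra.adjoin ℤ (Set.range χ) with hA
  set u : PowerSeries A := PowerSeries.mk fun n => ⟨_, coeff_wSer_mem χ (n + 1)⟩ with hu
  have hu0 : PowerSeries.constantCoeff u = ((1 : Aˣ) : A) := by
    rw [← PowerSeries.coeff_zero_eq_constantCoeff_apply, hu, PowerSeries.coeff_mk, Units.val_one]
    exact Subtype.ext (coeff_one_wSer χ)
  have hinv := congrArg (PowerSeries.map A.val.toRingHom) (PowerSeries.mul_invOfUnit u 1 hu0)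
  rw [map_mul, map_one] at hinv
  have hw : wSer χ = PowerSeries.X * PowerSeries.map A.val.toRingHom u := by
    ext n
    rcases n with _ | n
    · simp [coeff_zero_wSer]
    · rw [PowerSeries.coeff_succ_X_mul, PowerSeries.coeff_map, hu, PowerSeries.coeff_mk]
      rfl
  have hs : s = (s * PowerSeries.map A.val.toRingHom u) *
      PowerSeries.map A.val.toRingHom (PowerSeries.invOfUnit u 1) := by
    rw [mul_assoc, hinv, mul_one]
  rw [hs]
  refine fgCoeff_mul (fgCoeff_shift hF (by rw [← h, hw]; ring))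
    ⟨A.toSubmodule, fg_adjoin_char χ, fun n => ?_⟩
  rw [PowerSeries.coeff_map]
  exact (PowerSeries.coeff n (PowerSeries.invOfUnit u 1)).2

variable [NeZero M]

/-- Even weight cusp forms on `Γ₀(M²) ∩ Γ₁(M)` have coefficients in a finitely generated group. -/
theorem fgCoeff_even (hY : YForms) (hM : 4 ≤ M) (r : ℕ) {h : ℍ → ℂ}
    (hh : IsCuspFn (HM M) (2 * (r : ℤ)) h) : FGCoeff (qExpansion 1 h) := by
  classical
  have hq : ∀ χ, IsQFn (chiPart (2 * (r : ℤ)) h χ) := fun χ => isQFn_HM (isCuspFn_chiPart hh χ).form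
  have hsum : qExpansion 1 h =
      ∑ χ : DirichletCharacter ℂ M, qExpansion 1 (chiPart (2 * (r : ℤ)) h χ) := by
    apply HahnSeries.ofPowerSeries_injective (Γ := ℤ) (R := ℂ)
    rw [map_sum]
    show lq h = ∑ χ, lq _
    rw [← lq_sum _ fun χ _ => hq χ, sum_chiPart hh.form]
  rw [hsum]
  refine fgCoeff_sum _ fun χ _ => ?_
  by_cases hχ : χ.Even
  swap
  · rw [chiPart_eq_zero hh.form χ hχ, qExpansion_zero]
    exact fgCoeff_zero
  obtain ⟨W, hW, hWs, hWq⟩ := exists_wForm hY hM χ⁻¹ (even_inv hχ)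
  have hF := fgCoeff_gamma0 (M ^ 2)
    (isCuspFn_mul_gamma0 (isCuspFn_chiPart hh χ) (fun γ hγ => chiPart_slash hh.form χ hγ) hW hWs)
  refine fgCoeff_div_wSer χ⁻¹ hF ?_
  rw [qExpansion_mul (hq χ).analyticAt (isQFn_HM hW).analyticAt, hWq]

/-- A rational series with coefficients in a finitely generated group has bounded denominators. -/
theorem exists_denominator_of_fgCoeff {s : PowerSeries ℂ} (hs : FGCoeff s) {q : ℕ → ℚ}
    (hq : ∀ n, PowerSeries.coeff n s = (q n : ℂ)) :
    ∃ D : ℕ, 0 < D ∧ ∀ n, ∃ m : ℤ, (D : ℚ) * q n = m := by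
  obtain ⟨L, hL, hs⟩ := hs
  obtain ⟨π, hπ⟩ := Module.Projective.exists_dual_eq_one ℚ (one_ne_zero : (1 : ℂ) ≠ 0)
  obtain ⟨t, ht⟩ := hL.map (π.restrictScalars ℤ)
  obtain ⟨D, hD, hint⟩ := exists_nat_mul_eq_int t id
  refine ⟨D, hD, fun n => ?_⟩
  have hmem : q n ∈ L.map (π.restrictScalars ℤ) := by
    refine ⟨_, hs n, ?_⟩
    rw [hq, LinearMap.restrictScalars_apply,
      show ((q n : ℂ)) = (q n : ℚ) • (1 : ℂ) by simp [Rat.smul_def], map_smul, hπ, smul_eq_mul,
      mul_one]
  rw [← ht] at hmem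
  generalize q n = x at hmem
  induction hmem using Submodule.span_induction with
  | mem x hx => exact hint x hx
  | zero => exact ⟨0, by simp⟩
  | add x y _ _ hx hy =>
    obtain ⟨a, ha⟩ := hx; obtain ⟨b, hb⟩ := hy
    exact ⟨a + b, by rw [mul_add, ha, hb]; push_cast; ring⟩
  | smul z x _ hx =>
    obtain ⟨a, ha⟩ := hx
    exact ⟨z * a, by rw [zsmul_eq_mul, mul_left_comm, ha]; push_cast; ring⟩

theorem dvd_of_sq_eq {R : Type*} [CommRing R] [IsDomain R] [IsIntegrallyClosed R] {a b c : R}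
    (hb : b ≠ 0) (h : a ^ 2 = c * b ^ 2) : b ∣ a := by
  let F := FractionRing R
  have hb' : algebraMap R F b ≠ 0 := by
    simpa [map_eq_zero_iff _ (IsFractionRing.injective R F)] using hb
  have huint : IsIntegral R (algebraMap R F a / algebraMap R F b) := by
    refine IsIntegral.of_pow two_pos ?_
    rw [div_pow, ← map_pow, h, map_mul, map_pow, mul_div_cancel_right₀ _ (pow_ne_zero _ hb')]
    exact isIntegral_algebraMap
  obtain ⟨w, hw⟩ := IsIntegrallyClosed.isIntegral_iff.mp huint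
  refine ⟨w, IsFractionRing.injective R F ?_⟩
  rw [map_mul, hw, mul_div_cancel₀ _ hb']

/-- Weight-one cusp forms with rational expansion have bounded denominators. -/
theorem exists_denominator_one (hY : YForms) (hE : EisRat) (hM : 4 ≤ M) {g : ℍ → ℂ}
    (hg : IsCuspFn (HM M) 1 g) {q : ℕ → ℚ}
    (hq : ∀ n, PowerSeries.coeff n (qExpansion 1 g) = (q n : ℂ)) :
    ∃ D : ℕ, 0 < D ∧ ∀ n, ∃ m : ℤ, (D : ℚ) * q n = m := by
  obtain ⟨E, e, hEf, -, hEq, he0⟩ := exists_eis (M := M) hE (by omega)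
  set P := PowerSeries.mk q with hP
  set ι := PowerSeries.map (algebraMap ℚ ℂ) with hι
  set κ := PowerSeries.map (Int.castRingHom ℚ) with hκ
  have hκinj : Function.Injective κ := PowerSeries.map_injective _ Int.cast_injective
  have hιinj : Function.Injective ι := PowerSeries.map_injective _ (algebraMap ℚ ℂ).injective
  have hgP : qExpansion 1 g = ι P := by
    ext n; simp [hι, hP, hq]
  have heP : qExpansion 1 E = ι (κ e) := by
    rw [hEq, hι, hκ, ← RingHom.comp_apply (PowerSeries.map _), ← PowerSeries.map_comp,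
      RingHom.ext_int ((algebraMap ℚ ℂ).comp (Int.castRingHom ℚ)) (Int.castRingHom ℂ)]
  have hgq := (isQFn_HM hg.form).analyticAt
  have h1 : FGCoeff (ι (P * P)) := by
    rw [map_mul, ← hgP, ← qExpansion_mul hgq hgq]
    exact fgCoeff_even hY hM 1 (isCuspFn_cast (isCuspFn_mul hg hg.form) (by norm_num))
  have h2 : FGCoeff (ι (P * κ e)) := by
    rw [map_mul, ← hgP, ← heP, ← qExpansion_mul hgq (isQFn_HM hEf).analyticAt]
    exact fgCoeff_even hY hM 1 (isCuspFn_cast (isCuspFn_mul hg hEf) (by norm_num))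
  obtain ⟨D₁, hD₁, hd₁⟩ := exists_denominator_of_fgCoeff h1
      (q := fun n => PowerSeries.coeff n (P * P))
    (fun n => by rw [hι, PowerSeries.coeff_map]; rfl)
  obtain ⟨D₂, hD₂, hd₂⟩ := exists_denominator_of_fgCoeff h2
    (q := fun n => PowerSeries.coeff n (P * κ e)) (fun n => by rw [hι, PowerSeries.coeff_map]; rfl)
  choose m₁ hm₁ using hd₁
  choose m₂ hm₂ using hd₂
  have e1 : κ (PowerSeries.mk m₁) = (D₁ : PowerSeries ℚ) * (P * P) := by
    ext n
    rw [hκ, PowerSeries.coeff_map, PowerSeries.coeff_mk, eq_intCast, ← hm₁,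
      ← map_natCast PowerSeries.C, PowerSeries.coeff_C_mul]
  have e2 : κ (PowerSeries.mk m₂) = (D₂ : PowerSeries ℚ) * (P * κ e) := by
    ext n
    rw [hκ, PowerSeries.coeff_map, PowerSeries.coeff_mk, eq_intCast, ← hm₂,
      ← map_natCast PowerSeries.C, PowerSeries.coeff_C_mul]
  have key : ((D₁ : PowerSeries ℤ) * PowerSeries.mk m₂) ^ 2 =
      ((D₁ : PowerSeries ℤ) * (D₂ : PowerSeries ℤ) ^ 2 * PowerSeries.mk m₁) * e ^ 2 := by
    refine hκinj ?_
    simp only [map_pow, map_mul, map_natCast, e1, e2]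
    ring
  obtain ⟨w, hw⟩ := dvd_of_sq_eq he0 key
  refine ⟨D₁ * D₂, Nat.mul_pos hD₁ hD₂, fun n => ⟨PowerSeries.coeff n w, ?_⟩⟩
  have hkw : κ w = ((D₁ * D₂ : ℕ) : PowerSeries ℚ) * P := by
    refine mul_left_cancel₀ (a := κ e) (fun h => he0 (hκinj (by rw [h, map_zero]))) ?_
    have h' := congrArg κ hw
    simp only [map_mul, map_natCast, e2] at h'
    rw [← h']
    push_cast
    ring
  have := congrArg (PowerSeries.coeff n) hkw
  rw [← map_natCast PowerSeries.C, PowerSeries.coeff_C_mul, hκ, PowerSeries.coeff_map] at this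
  simpa [hP] using this.symm

end Fermat.Agent.WeightOneGalois
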