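import Mathlib
import Fermat.Prelude.Thm_ModularForm_sturm_bound_of_isArithmetic
import Fermat.Agent.WeightOneGalois.Arith.Bounded

/-!
# Conjugates and integrality of the coefficients in weight one

Proves `WeightOneArith` from the Eisenstein inputs `YForms` and `EisRat`: a normalised weight-one
eigenform has integral coefficients at good primes, in a number field, and its conjugates are
again cusp forms.
-/

noncomputable section

open UpperHalfPlane CongruenceSubgroup Filter Function
open Fermat.Agent.MF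
open ModularCurve (coeffMap)
open scoped MatrixGroups ModularForm Manifold Topology

namespace Fermat.Agent.WeightOneGalois

variable {M : ℕ} [NeZero M]

/-- A bound after which a cusp form of weight one is determined. -/
theorem exists_sturm_one (M : ℕ) [NeZero M] : ∃ B : ℕ, ∀ g : ℍ → ℂ, IsCuspFn (HM M) 1 g →
    (∀ i : Fin (B + 1), PowerSeries.coeff (i : ℕ) (qExpansion 1 g) = 0) → g = 0 := by
  refine ⟨((1 : ℤ) * (HM M : Subgroup (GL (Fin 2) ℝ)).relIndex 𝒮ℒ).toNat / 12, fun g hg h => ?_⟩
  have h0 := ModularForm.sturm_bound_of_isArithmetic (f := hg.form.toModularForm)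
    (one_mem_strictPeriods_HM M) ?_
  · exact congrArg (fun F : ModularForm (HM M) 1 => (⇑F : ℍ → ℂ)) h0
  · refine lt_of_lt_of_le (ENat.natCast_lt_natCast.mpr (Nat.lt_succ_self _))
      (PowerSeries.nat_le_order _ _ fun i hi => ?_)
    simpa using h ⟨i, hi⟩

/-- Weight-one cusp forms have coefficients in a finitely generated group. -/
theorem fgCoeff_one (hY : YForms) (hE : EisRat) (hM : 4 ≤ M) {f : ℍ → ℂ}
    (hf : IsCuspFn (HM M) 1 f) : FGCoeff (qExpansion 1 f) := by
  classical
  obtain ⟨B, hB⟩ := exists_sturm_one M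
  have hinj : ∀ a b : ℍ → ℂ, IsCuspFn (HM M) 1 a → IsCuspFn (HM M) 1 b →
      (∀ i : Fin (B + 1), PowerSeries.coeff (i : ℕ) (qExpansion 1 a) =
        PowerSeries.coeff (i : ℕ) (qExpansion 1 b)) → a = b := by
    intro a b ha hb h
    refine sub_eq_zero.mp (hB _ (isCuspFn_sub ha hb) fun i => ?_)
    rw [qExpansion_sub (isQFn_HM ha.form).analyticAt (isQFn_HM hb.form).analyticAt, map_sub, h i,
      sub_self]
  let W : Submodule ℂ (Fin (B + 1) → ℂ) :=
    { carrier := {w | ∃ g, IsCuspFn (HM M) 1 g ∧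
        ∀ i, w i = PowerSeries.coeff (i : ℕ) (qExpansion 1 g)}
      zero_mem' := ⟨0, isCuspFn_zero, fun i => by simp [qExpansion_zero]⟩
      add_mem' := by
        rintro u v ⟨g, hg, hu⟩ ⟨g', hg', hv⟩
        exact ⟨g + g', isCuspFn_add hg hg', fun i => by
          rw [qExpansion_add (isQFn_HM hg.form).analyticAt (isQFn_HM hg'.form).analyticAt, map_add,
            Pi.add_apply, hu, hv]⟩
      smul_mem' := by
        rintro c u ⟨g, hg, hu⟩
        exact ⟨c • g, isCuspFn_smul hg c, fun i => by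
          rw [qExpansion_smul (isQFn_HM hg.form).analyticAt, PowerSeries.coeff_smul, Pi.smul_apply,
            hu]⟩ }
  have hconj : ∀ (σ : ℂ →+* ℂ) g, IsCuspFn (HM M) 1 g → ∃ g', IsCuspFn (HM M) 1 g' ∧
      ∀ n, PowerSeries.coeff n (qExpansion 1 g') = σ (PowerSeries.coeff n (qExpansion 1 g)) := by
    intro σ g hg
    obtain ⟨g', hg', he⟩ := exists_cusp_galois_one hY hE hM σ hg
    exact ⟨g', hg', fun n => by rw [← lq_coeff_nat, he, ← lq_coeff_nat]; rfl⟩
  have hle := le_span_fixed W (by
    rintro σ w ⟨g, hg, hw⟩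
    obtain ⟨g', hg', h'⟩ := hconj σ g hg
    exact ⟨g', hg', fun i => by rw [h', ← hw]⟩)
  have hfW : (fun i : Fin (B + 1) => PowerSeries.coeff (i : ℕ) (qExpansion 1 f)) ∈ W :=
    ⟨f, hf, fun _ => rfl⟩
  obtain ⟨g, hg, hw, hfg⟩ : ∃ g, IsCuspFn (HM M) 1 g ∧
      (∀ i : Fin (B + 1), PowerSeries.coeff (i : ℕ) (qExpansion 1 f) =
        PowerSeries.coeff (i : ℕ) (qExpansion 1 g)) ∧ FGCoeff (qExpansion 1 g) := by
    suffices ∀ w ∈ Submodule.span ℂ {w | w ∈ W ∧ ∀ (σ : ℂ →+* ℂ) i, σ (w i) = w i},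
        ∃ g, IsCuspFn (HM M) 1 g ∧ (∀ i : Fin (B + 1),
          w i = PowerSeries.coeff (i : ℕ) (qExpansion 1 g)) ∧ FGCoeff (qExpansion 1 g) from
      this _ (hle hfW)
    intro w hw
    induction hw using Submodule.span_induction with
    | zero =>
      exact ⟨0, isCuspFn_zero, fun i => by simp [qExpansion_zero],
        by rw [qExpansion_zero]; exact fgCoeff_zero⟩
    | add u v _ _ hu hv =>
      obtain ⟨g, hg, hu, hgc⟩ := hu
      obtain ⟨g', hg', hv, hgc'⟩ := hv
      have he := qExpansion_add (isQFn_HM hg.form).analyticAt (isQFn_HM hg'.form).analyticAt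
      exact ⟨g + g', isCuspFn_add hg hg', fun i => by rw [he, map_add, Pi.add_apply, hu, hv],
        he ▸ fgCoeff_add hgc hgc'⟩
    | smul c u _ hu =>
      obtain ⟨g, hg, hu, hgc⟩ := hu
      have he := qExpansion_smul (isQFn_HM hg.form).analyticAt c
      exact ⟨c • g, isCuspFn_smul hg c, fun i => by
        rw [he, PowerSeries.coeff_smul, Pi.smul_apply, hu], he ▸ fgCoeff_smul c hgc⟩
    | mem w hw =>
      obtain ⟨⟨g, hg, hwg⟩, hfix⟩ := hw
      have hall : ∀ (σ : ℂ →+* ℂ) n,
          σ (PowerSeries.coeff n (qExpansion 1 g)) = PowerSeries.coeff n (qExpansion 1 g) := by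
        intro σ n
        obtain ⟨g', hg', h'⟩ := hconj σ g hg
        have : g' = g := hinj _ _ hg' hg fun i => by rw [h', ← hwg, hfix]
        rw [← h', this]
      choose q hq using fun n => exists_rat_of_forall_fixed fun σ => hall σ n
      obtain ⟨D, hD, hint⟩ := exists_denominator_one hY hE hM hg fun n => (hq n).symm
      refine ⟨g, hg, hwg, Submodule.span ℤ {(D : ℂ)⁻¹}, Submodule.fg_span_singleton _, fun n => ?_⟩
      obtain ⟨m, hm⟩ := hint n
      rw [Submodule.mem_span_singleton]
      refine ⟨m, ?_⟩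
      rw [← hq n, zsmul_eq_mul]
      have hm' : (D : ℂ) * (q n : ℂ) = (m : ℂ) := by
        exact_mod_cast congrArg (fun x : ℚ => (x : ℂ)) hm
      rw [← hm', mul_comm, ← mul_assoc, inv_mul_cancel₀ (Nat.cast_ne_zero.mpr hD.ne'), one_mul]
  rwa [hinj f g hf hg hw]

/-- Integral coefficients in a number field, and all conjugates, in weight one. -/
theorem weightOneArith_of (hY : YForms) (hE : EisRat) : WeightOneArith := by
  intro N _ ε f hfe
  have hM : 4 ≤ 4 * N := Nat.le_mul_of_pos_right 4 (NeZero.pos N)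
  have : NeZero (4 * N) := ⟨by omega⟩
  have hf : IsCuspFn (HM (4 * N)) 1 f :=
    isCuspFn_mono (isCuspFn_coe (Γ := Gamma1 N) f) (HM_le_Gamma1 (dvd_mul_left N 4))
  obtain ⟨L, hL, hmem⟩ := fgCoeff_one hY hE hM hf
  set a : ℕ → ℂ := ModularFormClass.qCoeff f with ha
  set A := Algebra.adjoin ℤ (Set.range ε) with hA
  set L' : Submodule ℤ ℂ := Submodule.span ℤ {x | ∃ e ∈ A, ∃ n, x = e * a n} with hL'
  have hbig : (A.toSubmodule * L).FG := (fg_adjoin_char ε).mul hL
  have hL'fg : L'.FG := isNoetherian_submodule.mp (isNoetherian_of_fg_of_noetherian _ hbig) L' (by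
    rw [hL', Submodule.span_le]
    rintro _ ⟨e, he, n, rfl⟩
    exact Submodule.mul_mem_mul he (hmem n))
  let S : Subalgebra ℤ ℂ :=
    { carrier := {x | ∀ l ∈ L', x * l ∈ L'}
      mul_mem' := fun {x y} hx hy l hl => by rw [mul_assoc]; exact hx _ (hy _ hl)
      add_mem' := fun {x y} hx hy l hl => by rw [add_mul]; exact add_mem (hx _ hl) (hy _ hl)
      one_mem' := fun l hl => by rwa [one_mul]
      zero_mem' := fun l hl => by rw [zero_mul]; exact zero_mem _
      algebraMap_mem' := fun z l hl => by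
        simpa [zsmul_eq_mul] using Submodule.smul_mem L' z hl }
  have hgen : ∀ x : ℂ, (∀ e ∈ A, ∀ n, x * (e * a n) ∈ L') → x ∈ S := by
    intro x hx l hl
    induction hl using Submodule.span_induction with
    | mem l hl => obtain ⟨e, he, n, rfl⟩ := hl; exact hx e he n
    | zero => rw [mul_zero]; exact zero_mem _
    | add u v _ _ hu hv => rw [mul_add]; exact add_mem hu hv
    | smul z u _ hu => rw [mul_smul_comm]; exact Submodule.smul_mem _ z hu
  have hεS : ∀ p, ε p ∈ S := fun p => hgen _ fun e he n =>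
    Submodule.subset_span ⟨ε p * e, mul_mem (Algebra.subset_adjoin ⟨p, rfl⟩) he, n, by ring⟩
  have haS : ∀ p : ℕ, p.Prime → ¬ p ∣ N → a p ∈ S := fun p hp hpN => hgen _ fun e he n => by
    rw [mul_left_comm, ← hfe.hecke p hp hpN n, mul_add]
    refine add_mem (Submodule.subset_span ⟨e, he, _, rfl⟩) ?_
    split_ifs
    · exact Submodule.subset_span
        ⟨e * ε (p : ZMod N), mul_mem he (Algebra.subset_adjoin ⟨_, rfl⟩), n / p, by ring⟩
    · simp
  have hSfg : S.toSubmodule.FG := by
    refine isNoetherian_submodule.mp (isNoetherian_of_fg_of_noetherian _ hL'fg) _ fun x hx => ?_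
    have h1 : (1 : ℂ) ∈ L' := Submodule.subset_span ⟨1, one_mem A, 1, by rw [ha, hfe.one, one_mul]⟩
    simpa using (show x ∈ S from hx) 1 h1
  refine ⟨fun p hp hpN => IsIntegral.of_mem_of_fg S hSfg _ (haS p hp hpN), ?_, fun σ => ?_⟩
  · obtain ⟨t, ht⟩ := hSfg
    refine ⟨IntermediateField.adjoin ℚ (t : Set ℂ), ?_, ?_⟩
    · refine IntermediateField.finiteDimensional_adjoin fun x hx => ?_
      exact (IsIntegral.of_mem_of_fg S ⟨t, ht⟩ x (by
        rw [← Subalgebra.mem_toSubmodule, ← ht]; exact Submodule.subset_span hx)).tower_top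
    · have hle : ∀ x ∈ S, x ∈ IntermediateField.adjoin ℚ (t : Set ℂ) := by
        intro x hx
        rw [← Subalgebra.mem_toSubmodule, ← ht] at hx
        induction hx using Submodule.span_induction with
        | mem x hx => exact IntermediateField.subset_adjoin ℚ _ hx
        | zero => exact zero_mem _
        | add u v _ _ hu hv => exact add_mem hu hv
        | smul z u _ hu => rw [zsmul_eq_mul]; exact mul_mem (intCast_mem _ z) hu
      exact fun p hp hpN => ⟨hle _ (haS p hp hpN), hle _ (hεS _)⟩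
  · obtain ⟨g, hg, he⟩ := exists_cusp_galois_one hY hE hM σ hf
    refine ⟨(4 * N) ^ 2, g, pow_ne_zero 2 (by omega), isCuspFn_mono hg Gamma1_sq_le_HM, fun n => ?_⟩
    simp only [ModularFormClass.qCoeff]
    rw [ha, ← lq_coeff_nat, he]
    simp only [ModularFormClass.qCoeff, ← lq_coeff_nat]
    rfl

end Fermat.Agent.WeightOneGalois
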